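import Mathlib

/-!
# Salié sums

In a finite field of odd characteristic with quadratic character `χ` and primitive additive
character `ψ`: `∑ x, χ x ψ (a x + b / x) = χ b g ∑_{y² = 4 a b} ψ y`, `g` the quadratic Gauss sum.
Both sides, as functions of `b` with `a = 1`, have the Fourier transform `q χ h ψ (1 / h)`.
-/

set_option autoImplicit false

noncomputable section

open Finset

namespace FA.SalieSum

variable {F : Type*} [Field F] [Fintype F] [DecidableEq F]

/-- The quadratic character with values in `ℂ`. -/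
def qchar (F : Type*) [Field F] [Fintype F] [DecidableEq F] : MulChar F ℂ :=
  (quadraticChar F).ringHomComp (Int.castRingHom ℂ)

theorem qchar_apply (x : F) : qchar F x = (quadraticChar F x : ℂ) := rfl

theorem qchar_inv (x : F) : qchar F x⁻¹ = qchar F x := by
  rcases eq_or_ne x 0 with rfl | hx
  · rw [inv_zero]
  · rw [show x⁻¹ = x * (x⁻¹ ^ 2) by field_simp, map_mul, qchar_apply (x⁻¹ ^ 2),
      quadraticChar_sq_one' (inv_ne_zero hx)]
    simp

theorem qchar_mul_self {x : F} (hx : x ≠ 0) : qchar F x * qchar F x = 1 := by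
  rw [← map_mul, ← sq, qchar_apply, quadraticChar_sq_one' hx, Int.cast_one]

/-- The quadratic Gauss sum. -/
def gsum (ψ : AddChar F ℂ) : ℂ := gaussSum (qchar F) ψ

variable {ψ : AddChar F ℂ}

omit [DecidableEq F] in
theorem sum_char (hψ : ψ.IsPrimitive) : ∑ x, ψ x = 0 :=
  AddChar.sum_eq_zero_of_ne_one (AddChar.mulShift_one ψ ▸ hψ (one_ne_zero (α := F)))

theorem gsum_mulShift (ψ : AddChar F ℂ) {c : F} (hc : c ≠ 0) :
    ∑ t, qchar F t * ψ (c * t) = qchar F c * gsum ψ := by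
  have h := gaussSum_mulShift (qchar F) ψ (Units.mk0 c hc)
  rw [Units.val_mk0] at h
  rw [gsum, ← h, ← mul_assoc, qchar_mul_self hc, one_mul]
  rfl

/-- `∑ y, ψ (c y²) = χ c g`. -/
theorem sum_sq (hF : ringChar F ≠ 2) (hψ : ψ.IsPrimitive) {c : F} (hc : c ≠ 0) :
    ∑ y, ψ (c * y ^ 2) = qchar F c * gsum ψ := by
  rw [← gsum_mulShift ψ hc, ← Finset.sum_fiberwise univ (fun y : F => y ^ 2)]
  have h : ∀ t : F, ∑ y ∈ univ.filter (fun y : F => y ^ 2 = t), ψ (c * y ^ 2) =
      ψ (c * t) + qchar F t * ψ (c * t) := by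
    intro t
    rw [Finset.sum_congr rfl fun y hy => by rw [(mem_filter.1 hy).2], sum_const, nsmul_eq_mul]
    have h := quadraticChar_card_sqrts hF t
    rw [show ({x : F | x ^ 2 = t}.toFinset) = univ.filter (fun y : F => y ^ 2 = t) by
      ext; simp] at h
    have h2 : ((#(univ.filter fun y : F => y ^ 2 = t) : ℕ) : ℂ) = qchar F t + 1 := by
      rw [qchar_apply]; exact_mod_cast h
    rw [h2]
    ring
  rw [Finset.sum_congr rfl fun t _ => h t, sum_add_distrib,
    show ∑ t, ψ (c * t) = 0 by rw [(mulLeft_bijective₀ c hc).sum_comp fun t => ψ t, sum_char hψ],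
    zero_add]

theorem gsum_sq (hF : ringChar F ≠ 2) (hψ : ψ.IsPrimitive) :
    gsum ψ * gsum ψ = qchar F (-1) * Fintype.card F := by
  rw [← sq]
  refine gaussSum_sq ?_ ((quadraticChar_isQuadratic F).comp _) hψ
  rw [MulChar.ne_one_iff]
  obtain ⟨a, ha⟩ := quadraticChar_exists_neg_one' hF
  exact ⟨a, by simp [ha]; norm_num⟩

theorem norm_gsum (hF : ringChar F ≠ 2) (hψ : ψ.IsPrimitive) :
    ‖gsum ψ‖ = Real.sqrt (Fintype.card F) := by
  have h := congrArg norm (gsum_sq hF hψ)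
  rw [norm_mul, norm_mul, qchar_apply, Complex.norm_natCast] at h
  rcases quadraticChar_dichotomy (neg_ne_zero.2 (one_ne_zero (α := F))) with h1 | h1 <;>
    · rw [h1] at h
      simp only [Int.cast_one, Int.cast_neg, norm_neg, norm_one, one_mul] at h
      rw [← h, Real.sqrt_mul_self (norm_nonneg _)]

/-- Right-hand side with `a = 1`. -/
def rhs (ψ : AddChar F ℂ) (b : F) : ℂ :=
  if b = 0 then gsum ψ else qchar F b * gsum ψ * ∑ y ∈ univ.filter (fun y => y ^ 2 = 4 * b), ψ y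

omit [Fintype F] [DecidableEq F] in
theorem four_ne_zero (hF : ringChar F ≠ 2) : (4 : F) ≠ 0 := by
  rw [show (4 : F) = 2 * 2 by norm_num]
  exact mul_ne_zero (Ring.two_ne_zero hF) (Ring.two_ne_zero hF)

theorem sum_rhs (hF : ringChar F ≠ 2) (ψ : AddChar F ℂ) (h : F) :
    ∑ b, rhs ψ b * ψ (-(h * b)) = gsum ψ * ∑ y, ψ (y - h / 4 * y ^ 2) := by
  have h4 := four_ne_zero hF
  rw [← add_sum_erase univ _ (mem_univ (0 : F)), ← add_sum_erase univ _ (mem_univ (0 : F)),
    mul_add, show rhs ψ (0 : F) = gsum ψ from if_pos rfl, mul_zero, neg_zero,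
    zero_pow two_ne_zero, mul_zero, sub_zero]
  congr 1
  rw [← Finset.sum_fiberwise_of_maps_to (t := univ.erase (0 : F)) (g := fun y : F => y ^ 2 / 4)
    (f := fun y : F => ψ (y - h / 4 * y ^ 2))
    (fun y hy => by simp_all), mul_sum]
  refine sum_congr rfl fun b hb => ?_
  have hb0 := (mem_erase.1 hb).1
  rw [rhs, if_neg hb0]
  simp only [mul_sum, sum_mul]
  refine Finset.sum_congr ?_ fun y hy => ?_
  · ext y
    simp only [mem_filter, mem_univ, true_and, mem_erase, and_true]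
    refine ⟨fun e => ⟨fun hy => ?_, ?_⟩, fun e => ?_⟩
    · subst hy
      exact mul_ne_zero h4 hb0 (by linear_combination -e)
    · rw [e]; field_simp
    · rw [← e.2]; field_simp
  · simp only [mem_filter, mem_univ, mem_erase, and_true] at hy
    obtain ⟨hy0, hyb⟩ := hy
    have hχ : qchar F b = 1 := by
      rw [← hyb, show y ^ 2 / 4 = (y / 2) ^ 2 by rw [div_pow]; norm_num, qchar_apply,
        quadraticChar_sq_one' (div_ne_zero hy0 (Ring.two_ne_zero hF)), Int.cast_one]
    rw [hχ, one_mul, mul_assoc, ← AddChar.map_add_eq_mul, ← hyb]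
    congr 2
    ring

theorem sum_rhs_eq (hF : ringChar F ≠ 2) (hψ : ψ.IsPrimitive) (h : F) :
    ∑ b, rhs ψ b * ψ (-(h * b)) = Fintype.card F * qchar F h * ψ h⁻¹ := by
  rw [sum_rhs hF ψ h]
  rcases eq_or_ne h 0 with rfl | hh
  · rw [MulChar.map_zero, mul_zero, zero_mul]
    simp [sum_char hψ]
  have h4 := four_ne_zero hF
  have hc : -h / 4 ≠ 0 := div_ne_zero (neg_ne_zero.2 hh) h4
  have e : ∀ y : F, ψ (y - h / 4 * y ^ 2) = ψ h⁻¹ * ψ (-h / 4 * (y - 2 / h) ^ 2) := fun y => by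
    rw [← AddChar.map_add_eq_mul]
    congr 1
    have h22 : (2 : F) ^ 2 = 4 := by norm_num
    field_simp
    ring
  rw [sum_congr rfl fun y _ => e y, ← mul_sum,
    show ∑ y, ψ (-h / 4 * (y - 2 / h) ^ 2) = ∑ y, ψ (-h / 4 * y ^ 2) from
      (Equiv.subRight (2 / h)).sum_comp (fun y => ψ (-h / 4 * y ^ 2)), sum_sq hF hψ hc,
    show -h / 4 = -1 * h * ((2 : F)⁻¹) ^ 2 by rw [inv_pow]; norm_num; ring, map_mul, map_mul,
    qchar_apply ((2 : F)⁻¹ ^ 2), quadraticChar_sq_one' (inv_ne_zero (Ring.two_ne_zero hF))]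
  linear_combination (qchar F h * ψ h⁻¹ * qchar F (-1)) * gsum_sq hF hψ +
    (qchar F h * ψ h⁻¹ * Fintype.card F) * qchar_mul_self (neg_ne_zero.2 (one_ne_zero (α := F)))

/-- The case `a = 1`. -/
theorem salie_one (hF : ringChar F ≠ 2) (hψ : ψ.IsPrimitive) (b : F) :
    ∑ x, qchar F x * ψ (x + b * x⁻¹) = rhs ψ b := by
  have hq : (Fintype.card F : ℂ) ≠ 0 := Nat.cast_ne_zero.2 Fintype.card_ne_zero
  refine mul_left_cancel₀ hq ?_
  calc (Fintype.card F : ℂ) * ∑ x, qchar F x * ψ (x + b * x⁻¹)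
      = ∑ h, (Fintype.card F * qchar F h * ψ h⁻¹) * ψ (h * b) := by
        rw [mul_sum, ← (inv_involutive (G := F)).bijective.sum_comp]
        refine sum_congr rfl fun h _ => ?_
        rw [qchar_inv, inv_inv, AddChar.map_add_eq_mul, mul_comm b]
        ring
    _ = ∑ h, (∑ c, rhs ψ c * ψ (-(h * c))) * ψ (h * b) :=
        sum_congr rfl fun h _ => by rw [sum_rhs_eq hF hψ]
    _ = ∑ c, rhs ψ c * ∑ h, ψ (h * (b - c)) := by
        simp only [sum_mul, mul_sum]
        rw [sum_comm]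
        refine sum_congr rfl fun c _ => sum_congr rfl fun h _ => ?_
        rw [mul_assoc, ← AddChar.map_add_eq_mul]
        congr 2
        ring
    _ = _ := by
        simp only [AddChar.sum_mulShift _ hψ, sub_eq_zero, mul_ite, Nat.cast_ite, Nat.cast_zero,
          mul_zero]
        rw [Finset.sum_ite_eq, if_pos (mem_univ _), mul_comm]

/-- **Salié's evaluation.** -/
theorem salie_eval (hF : ringChar F ≠ 2) (hψ : ψ.IsPrimitive) {a b : F} (ha : a ≠ 0) (hb : b ≠ 0) :
    ∑ x, qchar F x * ψ (a * x + b * x⁻¹) =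
      qchar F b * gsum ψ * ∑ y ∈ univ.filter (fun y => y ^ 2 = 4 * a * b), ψ y := by
  have h := salie_one hF hψ (a * b)
  rw [rhs, if_neg (mul_ne_zero ha hb), map_mul,
    ← (mulLeft_bijective₀ a ha).sum_comp fun x => qchar F x * ψ (x + a * b * x⁻¹)] at h
  have e : ∀ x, qchar F (a * x) * ψ (a * x + a * b * (a * x)⁻¹) =
      qchar F a * (qchar F x * ψ (a * x + b * x⁻¹)) := fun x => by
    rw [map_mul, mul_inv, show a * b * (a⁻¹ * x⁻¹) = b * x⁻¹ by field_simp]
    ring
  rw [sum_congr rfl fun x _ => e x, ← mul_sum, ← mul_assoc 4 a b] at h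
  refine mul_left_cancel₀ (left_ne_zero_of_mul_eq_one (qchar_mul_self ha)) ?_
  rw [h]
  ring

theorem salie_eq_zero (hF : ringChar F ≠ 2) (hψ : ψ.IsPrimitive) {a b : F} (ha : a ≠ 0)
    (hb : b ≠ 0) (h : ¬IsSquare (a * b)) : ∑ x, qchar F x * ψ (a * x + b * x⁻¹) = 0 := by
  rw [salie_eval hF hψ ha hb, filter_false_of_mem, sum_empty, mul_zero]
  intro y _ hy
  refine h ⟨y / 2, ?_⟩
  have h4 := four_ne_zero hF
  have h2 := Ring.two_ne_zero hF
  field_simp
  linear_combination -hy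

theorem salie_norm_le (hF : ringChar F ≠ 2) (hψ : ψ.IsPrimitive) {a b : F} (ha : a ≠ 0)
    (hb : b ≠ 0) :
    ‖∑ x, qchar F x * ψ (a * x + b * x⁻¹)‖ ≤ 2 * Real.sqrt (Fintype.card F) := by
  rw [salie_eval hF hψ ha hb, norm_mul, norm_mul, norm_gsum hF hψ]
  have h1 : ‖qchar F b‖ = 1 := by
    rcases quadraticChar_dichotomy hb with h | h <;> simp [qchar_apply, h]
  have hcard : (#(univ.filter fun y : F => y ^ 2 = 4 * a * b) : ℤ) ≤ 2 := by
    have h := quadraticChar_card_sqrts hF (4 * a * b)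
    rw [show ({x : F | x ^ 2 = 4 * a * b}.toFinset) =
      univ.filter (fun y : F => y ^ 2 = 4 * a * b) by ext; simp] at h
    have h4 := four_ne_zero hF
    rcases quadraticChar_dichotomy (mul_ne_zero (mul_ne_zero h4 ha) hb) with e | e <;> omega
  rw [h1, one_mul, mul_comm]
  refine mul_le_mul_of_nonneg_right ((norm_sum_le _ _).trans ?_) (Real.sqrt_nonneg _)
  rw [sum_congr rfl fun y _ => AddChar.norm_apply ψ y, sum_const, nsmul_eq_mul, mul_one]
  exact_mod_cast hcard

end FA.SalieSum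

end
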